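import Fermat.Agent.BerryEsseen.Maximal
import Mathlib.Analysis.PSeries
import Mathlib.Probability.BorelCantelli

/-!
# The law of the iterated logarithm

Along `⌈q ^ k⌉` the maximal inequality and the normal tail give a summable series, the error terms
being geometric; along `N ^ k` with `N` large the increments are independent and their
probabilities have an infinite sum.
-/

set_option autoImplicit false

noncomputable section

namespace FA.BerryEsseen

open MeasureTheory ProbabilityTheory Filter Set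
open scoped Real Topology ENNReal

/-- `√(2 n log log n)`. -/
def lilScale (n : ℕ) : ℝ := Real.sqrt (2 * n * Real.log (Real.log n))

theorem one_le_log_natCast {n : ℕ} (hn : 3 ≤ n) : 1 ≤ Real.log n := by
  rw [Real.le_log_iff_exp_le (by exact_mod_cast (show 0 < n by omega))]
  exact (Real.exp_one_lt_d9.le.trans (by norm_num)).trans (show (3 : ℝ) ≤ n by exact_mod_cast hn)

theorem loglog_mono {m n : ℕ} (hm : 3 ≤ m) (hmn : m ≤ n) :
    Real.log (Real.log m) ≤ Real.log (Real.log n) :=
  Real.log_le_log (zero_lt_one.trans_le (one_le_log_natCast hm)) (Real.log_le_log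
    (by exact_mod_cast (show 0 < m by omega)) (by exact_mod_cast hmn))

theorem lilScale_mono {m n : ℕ} (hm : 3 ≤ m) (hmn : m ≤ n) : lilScale m ≤ lilScale n :=
  Real.sqrt_le_sqrt (mul_le_mul (by gcongr) (loglog_mono hm hmn)
    (Real.log_nonneg (one_le_log_natCast hm)) (by positivity))

theorem lilScale_eventually_pos : ∀ᶠ n : ℕ in atTop, 0 < lilScale n := by
  filter_upwards [eventually_ge_atTop 3, (Real.tendsto_log_atTop.comp (Real.tendsto_log_atTop.comp
    tendsto_natCast_atTop_atTop)).eventually_gt_atTop 0] with n hn hn'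
  exact Real.sqrt_pos.2 (mul_pos (by positivity) hn')

theorem eventually_add_le_sqrt {a b D : ℝ} (ha : 0 ≤ a) (hab : a < b) :
    ∀ᶠ k : ℕ in atTop, Real.sqrt (2 * a * Real.log k) + D ≤ Real.sqrt (2 * b * Real.log k) := by
  have hd : 0 < Real.sqrt (2 * b) - Real.sqrt (2 * a) :=
    sub_pos.2 (Real.sqrt_lt_sqrt (by linarith) (by linarith))
  have hlim := (Real.tendsto_sqrt_atTop.comp
    (Real.tendsto_log_atTop.comp tendsto_natCast_atTop_atTop)).const_mul_atTop hd
  filter_upwards [hlim.eventually_ge_atTop D] with k hk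
  simp only [Function.comp_apply] at hk
  rw [Real.sqrt_mul (show 0 ≤ 2 * a by linarith), Real.sqrt_mul (show 0 ≤ 2 * b by linarith)]
  linarith

variable {Ω : Type*} [MeasurableSpace Ω] {P : Measure Ω} [IsProbabilityMeasure P]
  {X : ℕ → Ω → ℝ}

/-- **The upper half.** -/
theorem Standard.eventually_gt (h : Standard X P) {c : ℝ} (hc : 1 < c) :
    ∀ᵐ ω ∂P, ∀ᶠ n : ℕ in atTop, -(c * lilScale n) < partialSum X n ω := by
  set q := Real.sqrt c with hq
  have hq1 : 1 < q := (Real.lt_sqrt zero_le_one).2 (by rwa [one_pow])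
  have hq0 : 0 < q := zero_lt_one.trans hq1
  have hq2 : q ^ 2 = c := Real.sq_sqrt (zero_le_one.trans hc.le)
  set ρ := 8000 * thirdMoment X P
  have hρ : 0 ≤ ρ := mul_nonneg (by norm_num) (integral_nonneg fun ω => by positivity)
  set nk : ℕ → ℕ := fun k => ⌈q ^ k⌉₊
  have hnk : ∀ k, q ^ k ≤ nk k ∧ (nk k : ℝ) ≤ q ^ k + 1 := fun k =>
    ⟨Nat.le_ceil _, (Nat.ceil_lt_add_one (by positivity)).le⟩
  have hmono : Monotone nk := fun i j hij => Nat.ceil_mono (pow_le_pow_right₀ hq1.le hij)
  have htop : Tendsto nk atTop atTop := tendsto_natCast_atTop_iff.1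
    (tendsto_atTop_mono (fun k => (hnk k).1) (tendsto_pow_atTop_atTop_of_one_lt hq1))
  set s := Real.sqrt q
  have hs1 : 1 < s := (Real.lt_sqrt zero_le_one).2 (by rwa [one_pow])
  -- the block events
  set F : ℕ → Set Ω := fun k => {ω | ∃ j ≤ nk (k + 1), partialSum X j ω ≤ -(c * lilScale (nk k))}
  have hbound : ∀ᶠ k : ℕ in atTop,
      P.real (F k) ≤ 2 * (k : ℝ) ^ (-s) + 2 * ρ * ((Real.sqrt q)⁻¹) ^ k := by
    filter_upwards [htop.eventually_ge_atTop 3, eventually_gt_atTop 0,
      (tendsto_pow_atTop_atTop_of_one_lt hq1).eventually_ge_atTop (1 / (q * (q - 1))),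
      (Real.tendsto_log_atTop.comp tendsto_natCast_atTop_atTop).eventually_ge_atTop
        (-(q * Real.log (Real.log q)) / (q - 1)),
      (Real.tendsto_log_atTop.comp tendsto_natCast_atTop_atTop).eventually_ge_atTop 0,
      eventually_add_le_sqrt (D := 2) (zero_le_one.trans hs1.le)
        (show s < q by rw [Real.sqrt_lt' hq0]; nlinarith)] with k hk3 hk0 hpow hlog hlog0 hy
    simp only [Function.comp_apply] at hlog hlog0
    rw [div_le_iff₀ (mul_pos hq0 (by linarith))] at hpow
    rw [div_le_iff₀ (by linarith)] at hlog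
    set N := nk (k + 1)
    set n := nk k
    have hN : 0 < N := lt_of_lt_of_le (by omega) (hmono (Nat.le_succ k))
    have hk' : (0 : ℝ) < k := Nat.cast_pos.2 hk0
    have hNn : (N : ℝ) ≤ q ^ 2 * n := by
      have h1 := (hnk (k + 1)).2
      have h2 := mul_le_mul_of_nonneg_left (hnk k).1 (sq_nonneg q)
      rw [pow_succ] at h1
      nlinarith
    have hLL : Real.log k + Real.log (Real.log q) ≤ Real.log (Real.log n) := by
      rw [← Real.log_mul hk'.ne' (Real.log_pos hq1).ne']
      refine Real.log_le_log (mul_pos hk' (Real.log_pos hq1)) ?_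
      rw [← Real.log_pow]
      exact Real.log_le_log (by positivity) (hnk k).1
    have hscale : Real.sqrt (2 * q * Real.log k) * Real.sqrt N ≤ c * lilScale n := by
      rw [← Real.sqrt_mul (by positivity), lilScale,
        ← Real.sqrt_sq (show (0 : ℝ) ≤ c by linarith), ← Real.sqrt_mul (sq_nonneg c)]
      refine Real.sqrt_le_sqrt ?_
      have h1 : Real.log k ≤ q * Real.log (Real.log n) := by
        have := mul_le_mul_of_nonneg_left hLL hq0.le
        linarith
      calc 2 * q * Real.log k * N ≤ 2 * q * (q * Real.log (Real.log n)) * (q ^ 2 * n) := by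
            refine mul_le_mul (mul_le_mul_of_nonneg_left h1 (by positivity)) hNn
              (Nat.cast_nonneg N) ?_
            exact mul_nonneg (by positivity) (hlog0.trans h1)
        _ = c ^ 2 * (2 * n * Real.log (Real.log n)) := by rw [← hq2]; ring
    set y := Real.sqrt (2 * s * Real.log k)
    have hsub : P.real {ω | partialSum X N ω ≤ -(c * lilScale n) + 2 * Real.sqrt N} ≤
        P.real {ω | partialSum X N ω ≤ -(y * Real.sqrt N)} := by
      refine measureReal_mono fun ω hω => ?_
      show partialSum X N ω ≤ _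
      refine le_trans hω ?_
      have := mul_le_mul_of_nonneg_right hy (Real.sqrt_nonneg (N : ℝ))
      linarith
    have hexp : Real.exp (-y ^ 2 / 2) = (k : ℝ) ^ (-s) := by
      rw [Real.sq_sqrt (by positivity), Real.rpow_def_of_pos hk']
      ring_nf
    have herr : ρ / Real.sqrt N ≤ ρ * ((Real.sqrt q)⁻¹) ^ k := by
      rw [inv_pow, div_eq_mul_inv]
      refine mul_le_mul_of_nonneg_left (inv_anti₀ (by positivity) ?_) hρ
      refine Real.le_sqrt_of_sq_le ?_
      rw [← pow_mul, mul_comm k 2, pow_mul, Real.sq_sqrt hq0.le]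
      exact (hnk k).1.trans (Nat.cast_le.2 (hmono (Nat.le_succ k)))
    calc P.real (F k) ≤ 2 * P.real {ω | partialSum X N ω ≤ -(c * lilScale n) + 2 * Real.sqrt N} :=
          h.maximal_le hN _
      _ ≤ 2 * (Real.exp (-y ^ 2 / 2) + ρ / Real.sqrt N) :=
          mul_le_mul_of_nonneg_left (hsub.trans (h.tail_le hN (Real.sqrt_nonneg _))) zero_le_two
      _ ≤ _ := by rw [hexp]; linarith
  have hsum : Summable fun k => P.real (F k) := by
    have hg : Summable fun k : ℕ => 2 * (k : ℝ) ^ (-s) + 2 * ρ * ((Real.sqrt q)⁻¹) ^ k :=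
      ((Real.summable_nat_rpow.2 (by linarith)).mul_left 2).add
        ((summable_geometric_of_lt_one (by positivity) (inv_lt_one_of_one_lt₀ hs1)).mul_left _)
    refine Summable.of_norm_bounded_eventually_nat hg ?_
    filter_upwards [hbound] with k hk
    rwa [Real.norm_eq_abs, abs_of_nonneg measureReal_nonneg]
  have htsum : ∑' k, P (F k) ≠ ∞ := by
    rw [show (fun k => P (F k)) = fun k => ENNReal.ofReal (P.real (F k)) from
      funext fun k => (ofReal_measureReal (measure_ne_top P _)).symm,
      ← ENNReal.ofReal_tsum_of_nonneg (fun k => measureReal_nonneg) hsum]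
    exact ENNReal.ofReal_ne_top
  filter_upwards [ae_eventually_notMem htsum] with ω hω
  obtain ⟨K, hK⟩ := eventually_atTop.1 (hω.and (htop.eventually_ge_atTop 3))
  filter_upwards [eventually_gt_atTop (nk K)] with n hn
  by_contra hcon
  have hex : ∃ k, n ≤ nk k := (htop.eventually_ge_atTop n).exists
  obtain ⟨k, hk⟩ : ∃ k, Nat.find hex = k + 1 := by
    refine Nat.exists_eq_succ_of_ne_zero fun h0 => ?_
    have := Nat.find_spec hex
    rw [h0] at this
    exact absurd (this.trans (hmono (Nat.zero_le K))) (not_le.2 hn)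
  have h1 : n ≤ nk (k + 1) := hk ▸ Nat.find_spec hex
  have h2 : nk k < n := not_le.1 (Nat.find_min hex (by omega))
  have hKk : K ≤ k := by
    by_contra hKk
    exact absurd (h1.trans (hmono (Nat.succ_le_of_lt (not_le.1 hKk)))) (not_le.2 hn)
  obtain ⟨hnot, h3⟩ := hK k hKk
  refine hnot ⟨n, h1, (not_lt.1 hcon).trans ?_⟩
  exact neg_le_neg (mul_le_mul_of_nonneg_left (lilScale_mono h3 h2.le) (zero_le_one.trans hc.le))

/-- **The lower half.** -/
theorem Standard.frequently_lt (h : Standard X P) {c : ℝ} (hc : c < 1) :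
    ∀ᵐ ω ∂P, ∃ᶠ n : ℕ in atTop, partialSum X n ω < -(c * lilScale n) := by
  set c' := max c 0
  have hc1 : c' < 1 := max_lt hc zero_lt_one
  have hc0 : 0 ≤ c' := le_max_right _ _
  set a := (1 + c') / 2
  have ha : c' < a := by simp only [a]; linarith
  have ha1 : a < 1 := by simp only [a]; linarith
  have ha0 : 0 < a := hc0.trans_lt ha
  obtain ⟨N, hN3, hNa, hNc⟩ := ((eventually_ge_atTop 3).and
    ((tendsto_natCast_atTop_atTop.eventually_ge_atTop (1 / (1 - a))).and
      ((Real.tendsto_sqrt_atTop.comp tendsto_natCast_atTop_atTop).eventually_gt_atTop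
        (2 / (a - c'))))).exists
  have hN' : (3 : ℝ) ≤ N := by exact_mod_cast hN3
  rw [div_le_iff₀ (by linarith)] at hNa
  simp only [Function.comp_apply] at hNc
  rw [div_lt_iff₀ (by linarith)] at hNc
  have hpow : ∀ k : ℕ, N ^ k ≤ N ^ (k + 1) := fun k =>
    Nat.pow_le_pow_right (by omega) (Nat.le_succ k)
  set ρ := 8000 * thirdMoment X P
  have hρ : 0 ≤ ρ := mul_nonneg (by norm_num) (integral_nonneg fun ω => by positivity)
  set F : ℕ → Set Ω := fun k =>
    {ω | partialSum X (N ^ (k + 1)) ω - partialSum X (N ^ k) ω ≤ -(a * lilScale (N ^ (k + 1)))}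
  have hFm : ∀ k, MeasurableSet (F k) := fun k => measurableSet_le
    ((h.measurable_partialSum _).sub (h.measurable_partialSum _)) measurable_const
  -- independence
  have hind : iIndepSet F P := by
    rw [iIndepSet_iff_meas_biInter hFm]
    intro t
    induction t using Finset.induction_on_max with
    | empty => simp
    | insert k t hlt ih =>
      have hk : k ∉ t := fun hk => lt_irrefl k (hlt k hk)
      set SA := ⋂ j ∈ t, {f : ℕ → ℝ | ∑ i ∈ Finset.range (N ^ (j + 1)), f i -
        ∑ i ∈ Finset.range (N ^ j), f i ≤ -(a * lilScale (N ^ (j + 1)))}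
      set SB := {f : ℕ → ℝ | ∑ i ∈ Finset.Ico (N ^ k) (N ^ (k + 1)), f i ≤
        -(a * lilScale (N ^ (k + 1)))}
      have hsum : ∀ s : Finset ℕ, Measurable fun f : ℕ → ℝ => ∑ i ∈ s, f i := fun s =>
        Finset.measurable_sum _ fun i _ => measurable_pi_apply i
      have hSA : MeasurableSet SA := Finset.measurableSet_biInter _ fun j _ =>
        measurableSet_le ((hsum _).sub (hsum _)) measurable_const
      have hSB : MeasurableSet SB := measurableSet_le (hsum _) measurable_const
      have eA : ⋂ j ∈ t, F j = early X (N ^ k) ⁻¹' SA := by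
        ext ω
        simp only [F, SA, mem_iInter, mem_preimage, mem_ofPred_eq]
        refine forall₂_congr fun j hj => ?_
        have hjk : N ^ (j + 1) ≤ N ^ k := Nat.pow_le_pow_right (by omega) (hlt j hj)
        rw [sum_early X hjk ω, sum_early X ((hpow j).trans hjk) ω]
      have eB : F k = late X (N ^ k) (N ^ (k + 1)) ⁻¹' SB := by
        ext ω
        simp only [F, SB, mem_preimage, mem_ofPred_eq, sum_late X (hpow k) ω]
      rw [Finset.set_biInter_insert, Finset.prod_insert hk, ← ih, inter_comm, eA, eB,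
        h.measure_early_inter_late hSA hSB, mul_comm]
  -- the probabilities
  set D := Real.log 2 + Real.log (Real.log N)
  have hlow : ∀ᶠ k : ℕ in atTop,
      1 / (3 * (k : ℝ)) - ρ * ((Real.sqrt N)⁻¹) ^ k ≤ P.real (F k) := by
    filter_upwards [eventually_gt_atTop 0,
      (Real.tendsto_log_atTop.comp tendsto_natCast_atTop_atTop).eventually_ge_atTop
        (a * D / ((1 - a) / 2)),
      eventually_add_le_sqrt (D := 1) (a := (1 + a) / 2) (b := 1) (by linarith) (by linarith)]
      with k hk0 hlog hy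
    simp only [Function.comp_apply] at hlog
    rw [div_le_iff₀ (by linarith)] at hlog
    have hk' : (0 : ℝ) < k := Nat.cast_pos.2 hk0
    set m := N ^ (k + 1) - N ^ k
    have hmN : N ^ k ≤ m := by
      have : 2 * N ^ k ≤ N ^ (k + 1) := by
        rw [pow_succ, mul_comm]
        exact Nat.mul_le_mul_left _ (by omega)
      simp only [m]
      omega
    have hm : 0 < m := lt_of_lt_of_le (by positivity) hmN
    have hdist : P.real (F k) =
        P.real {ω | partialSum (fun i => X (N ^ k + i)) m ω ≤ -(a * lilScale (N ^ (k + 1)))} := by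
      congr 1
      ext ω
      simp only [F, mem_ofPred_eq, partialSum]
      rw [show N ^ (k + 1) = N ^ k + m from (Nat.add_sub_cancel' (hpow k)).symm,
        Finset.sum_range_add, add_sub_cancel_left]
    set y := a * lilScale (N ^ (k + 1)) / Real.sqrt m
    have hsm : 0 < Real.sqrt m := Real.sqrt_pos.2 (Nat.cast_pos.2 hm)
    have hy0 : 0 ≤ y := div_nonneg (mul_nonneg ha0.le (Real.sqrt_nonneg _)) hsm.le
    set LL := Real.log (Real.log ((N ^ (k + 1) : ℕ) : ℝ)) with hLLdef
    have hLL : LL ≤ Real.log k + D := by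
      rw [hLLdef, Nat.cast_pow, Real.log_pow]
      have hl : 0 < Real.log N := Real.log_pos (by linarith)
      calc Real.log ((k + 1 : ℕ) * Real.log N) ≤ Real.log (2 * k * Real.log N) := by
            refine Real.log_le_log (by positivity) (mul_le_mul_of_nonneg_right ?_ hl.le)
            push_cast
            linarith [(Nat.one_le_cast (α := ℝ)).2 hk0]
        _ = Real.log k + D := by
            rw [Real.log_mul (by positivity) hl.ne', Real.log_mul two_ne_zero hk'.ne']
            ring
    have hy1 : y ≤ Real.sqrt (2 * ((1 + a) / 2) * Real.log k) := by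
      have e : ∀ z, a * Real.sqrt z = Real.sqrt (a ^ 2 * z) := fun z => by
        rw [Real.sqrt_mul (sq_nonneg a), Real.sqrt_sq ha0.le]
      rw [div_le_iff₀ hsm, ← Real.sqrt_mul (by positivity), lilScale, e]
      refine Real.sqrt_le_sqrt ?_
      rw [← hLLdef, show (m : ℝ) = (N : ℝ) ^ k * (N - 1) by
        simp only [m]
        rw [Nat.cast_sub (hpow k)]
        push_cast
        ring, Nat.cast_pow, pow_succ]
      have h1 : a * LL ≤ (1 + a) / 2 * Real.log k := by
        have := mul_le_mul_of_nonneg_left hLL ha0.le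
        linarith
      have h2 : a * N ≤ N - 1 := by linarith
      have hLL0 : 0 ≤ LL := Real.log_nonneg (one_le_log_natCast
        (hN3.trans (Nat.le_self_pow (Nat.succ_ne_zero k) N)))
      calc a ^ 2 * (2 * ((N : ℝ) ^ k * N) * LL) = 2 * (N : ℝ) ^ k * (a * N) * (a * LL) := by ring
        _ ≤ 2 * (N : ℝ) ^ k * (N - 1) * ((1 + a) / 2 * Real.log k) := by
            refine mul_le_mul (mul_le_mul_of_nonneg_left h2 (by positivity)) h1
              (mul_nonneg ha0.le hLL0) (mul_nonneg (by positivity) (by linarith))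
        _ = _ := by ring
    have hexp : 1 / (3 * (k : ℝ)) ≤ Real.exp (-(y + 1) ^ 2 / 2) / 3 := by
      have hy2 : y + 1 ≤ Real.sqrt (2 * 1 * Real.log k) := by
        refine le_trans ?_ hy
        exact add_le_add hy1 le_rfl
      have h1 := pow_le_pow_left₀ (add_nonneg hy0 zero_le_one) hy2 2
      rw [Real.sq_sqrt (by positivity)] at h1
      rw [one_div, mul_inv, mul_comm, ← div_eq_mul_inv]
      refine div_le_div_of_nonneg_right ?_ (by norm_num)
      rw [← Real.exp_log hk', ← Real.exp_neg]
      exact Real.exp_le_exp.2 (by linarith)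
    have herr : ρ / Real.sqrt m ≤ ρ * ((Real.sqrt N)⁻¹) ^ k := by
      rw [inv_pow, div_eq_mul_inv]
      refine mul_le_mul_of_nonneg_left (inv_anti₀ (by positivity) ?_) hρ
      refine Real.le_sqrt_of_sq_le ?_
      rw [← pow_mul, mul_comm k 2, pow_mul, Real.sq_sqrt (Nat.cast_nonneg N), ← Nat.cast_pow]
      exact Nat.cast_le.2 hmN
    have ht := (h.shift (N ^ k)).le_tail hm hy0
    rw [h.thirdMoment_shift, div_mul_cancel₀ _ hsm.ne'] at ht
    rw [hdist]
    linarith
  have hdiv : ∑' k, P (F k) = ∞ := by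
    by_contra hne
    have hs := ENNReal.summable_toReal hne
    have hgeo : Summable fun k : ℕ => ρ * ((Real.sqrt N)⁻¹) ^ k :=
      (summable_geometric_of_lt_one (by positivity) (inv_lt_one_of_one_lt₀
        ((Real.lt_sqrt zero_le_one).2 (by linarith)))).mul_left ρ
    have h3 : Summable fun k : ℕ => 1 / (3 * (k : ℝ)) := by
      refine Summable.of_norm_bounded_eventually_nat (hs.add hgeo) ?_
      filter_upwards [hlow] with k hk
      rw [Real.norm_eq_abs, abs_of_nonneg (by positivity)]
      rw [← measureReal_def]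
      linarith
    refine Real.not_summable_one_div_natCast ((h3.mul_left 3).congr fun k => ?_)
    ring
  have hlimsup : ∀ᵐ ω ∂P, ∃ᶠ k in atTop, ω ∈ F k := by
    have hm : MeasurableSet (limsup F atTop) := MeasurableSet.measurableSet_limsup hFm
    have := (prob_compl_eq_zero_iff hm).2 (measure_limsup_eq_one hFm hind hdiv)
    filter_upwards [mem_ae_iff.2 this] with ω hω
    exact mem_limsup_iff_frequently_mem.1 hω
  filter_upwards [hlimsup, h.neg.eventually_gt one_lt_two] with ω hfr hev
  have htop : Tendsto (fun k => N ^ k) atTop atTop := tendsto_pow_atTop_atTop_of_one_lt (by omega)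
  have hev' : ∀ᶠ k in atTop, -(2 * lilScale (N ^ k)) < partialSum (fun i ω => -X i ω) (N ^ k) ω :=
    htop.eventually hev
  refine (htop.comp (tendsto_add_atTop_nat 1)).frequently ((hfr.and_eventually
    (hev'.and ((htop.eventually_ge_atTop 3).and
      ((htop.comp (tendsto_add_atTop_nat 1)).eventually lilScale_eventually_pos)))).mono ?_)
  rintro k ⟨hk, hk2, hk3, hkpos⟩
  have hneg : partialSum (fun i ω => -X i ω) (N ^ k) ω = -partialSum X (N ^ k) ω :=
    Finset.sum_neg_distrib _
  rw [hneg, neg_lt_neg_iff] at hk2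
  have hk' : partialSum X (N ^ (k + 1)) ω - partialSum X (N ^ k) ω ≤
    -(a * lilScale (N ^ (k + 1))) := hk
  have hsmall : Real.sqrt N * lilScale (N ^ k) ≤ lilScale (N ^ (k + 1)) := by
    rw [lilScale, lilScale, ← Real.sqrt_mul (Nat.cast_nonneg N)]
    refine Real.sqrt_le_sqrt ?_
    have hmul := mul_le_mul_of_nonneg_left (loglog_mono hk3 (hpow k))
      (show (0 : ℝ) ≤ 2 * ((N ^ (k + 1) : ℕ) : ℝ) by positivity)
    refine le_trans (le_of_eq ?_) hmul
    push_cast
    ring
  have h1 : 2 * lilScale (N ^ k) ≤ (a - c') * lilScale (N ^ (k + 1)) := by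
    refine le_trans ?_ (mul_le_mul_of_nonneg_left hsmall (by linarith))
    rw [← mul_assoc]
    exact mul_le_mul_of_nonneg_right (by linarith) (Real.sqrt_nonneg _)
  show partialSum X (N ^ (k + 1)) ω < -(c * lilScale (N ^ (k + 1)))
  simp only [Function.comp_apply] at hkpos
  have h2 : c * lilScale (N ^ (k + 1)) ≤ c' * lilScale (N ^ (k + 1)) :=
    mul_le_mul_of_nonneg_right (le_max_left c 0) hkpos.le
  linarith

/-- **The law of the iterated logarithm**, standardised. -/
theorem Standard.iterated_log (h : Standard X P) :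
    ∀ᵐ ω ∂P, (∀ c > 1, ∀ᶠ n : ℕ in atTop, |partialSum X n ω| < c * lilScale n) ∧
      (∀ c < 1, ∃ᶠ n : ℕ in atTop, c * lilScale n < partialSum X n ω) ∧
      (∀ c < 1, ∃ᶠ n : ℕ in atTop, partialSum X n ω < -(c * lilScale n)) ∧
      limsup (fun n => partialSum X n ω / lilScale n) atTop = 1 ∧
      liminf (fun n => partialSum X n ω / lilScale n) atTop = -1 := by
  have hneg : ∀ n ω, partialSum (fun i ω => -X i ω) n ω = -partialSum X n ω := fun n ω =>
    Finset.sum_neg_distrib _
  have hu : ∀ i : ℕ, ∀ᵐ ω ∂P, ∀ᶠ n : ℕ in atTop,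
      |partialSum X n ω| < (1 + 1 / ((i : ℝ) + 1)) * lilScale n := fun i => by
    have hi : (1 : ℝ) < 1 + 1 / ((i : ℝ) + 1) := lt_add_of_pos_right _ (by positivity)
    filter_upwards [h.eventually_gt hi, h.neg.eventually_gt hi] with ω h1 h2
    filter_upwards [h1, h2] with n h1 h2
    rw [hneg] at h2
    exact abs_lt.2 ⟨h1, by linarith⟩
  have hl : ∀ i : ℕ, ∀ᵐ ω ∂P,
      (∃ᶠ n : ℕ in atTop, (1 - 1 / ((i : ℝ) + 1)) * lilScale n < partialSum X n ω) ∧
      ∃ᶠ n : ℕ in atTop, partialSum X n ω < -((1 - 1 / ((i : ℝ) + 1)) * lilScale n) := fun i => by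
    have hi : (1 : ℝ) - 1 / ((i : ℝ) + 1) < 1 := sub_lt_self _ (by positivity)
    filter_upwards [h.frequently_lt hi, h.neg.frequently_lt hi] with ω h1 h2
    refine ⟨h2.mono fun n hn => ?_, h1⟩
    rw [hneg] at hn
    linarith
  filter_upwards [ae_all_iff.2 hu, ae_all_iff.2 hl] with ω hu' hl'
  have H1 : ∀ c > 1, ∀ᶠ n : ℕ in atTop, |partialSum X n ω| < c * lilScale n := fun c hc => by
    obtain ⟨i, hi⟩ := exists_nat_one_div_lt (sub_pos.2 hc)
    filter_upwards [hu' i, lilScale_eventually_pos] with n hn hpos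
    exact hn.trans_le (mul_le_mul_of_nonneg_right (by linarith) hpos.le)
  have H2 : ∀ c < 1, ∃ᶠ n : ℕ in atTop, c * lilScale n < partialSum X n ω := fun c hc => by
    obtain ⟨i, hi⟩ := exists_nat_one_div_lt (sub_pos.2 hc)
    exact ((hl' i).1.and_eventually lilScale_eventually_pos).mono fun n ⟨hn, hpos⟩ =>
      lt_of_le_of_lt (mul_le_mul_of_nonneg_right (by linarith) hpos.le) hn
  have H3 : ∀ c < 1, ∃ᶠ n : ℕ in atTop, partialSum X n ω < -(c * lilScale n) := fun c hc => by
    obtain ⟨i, hi⟩ := exists_nat_one_div_lt (sub_pos.2 hc)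
    exact ((hl' i).2.and_eventually lilScale_eventually_pos).mono fun n ⟨hn, hpos⟩ =>
      hn.trans_le (neg_le_neg (mul_le_mul_of_nonneg_right (by linarith) hpos.le))
  set g := fun n => partialSum X n ω / lilScale n
  have hle : ∀ c > 1, ∀ᶠ n : ℕ in atTop, -c ≤ g n ∧ g n ≤ c := fun c hc => by
    filter_upwards [H1 c hc, lilScale_eventually_pos] with n hn hpos
    obtain ⟨h1, h2⟩ := abs_lt.1 hn
    exact ⟨(le_div_iff₀ hpos).2 (by linarith), (div_le_iff₀ hpos).2 h2.le⟩
  have hbdd : IsBoundedUnder (· ≤ ·) atTop g ∧ IsBoundedUnder (· ≥ ·) atTop g :=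
    ⟨⟨2, eventually_map.2 ((hle 2 one_lt_two).mono fun n hn => hn.2)⟩,
      ⟨-2, eventually_map.2 ((hle 2 one_lt_two).mono fun n hn => hn.1)⟩⟩
  refine ⟨H1, H2, H3, le_antisymm ?_ ?_, le_antisymm ?_ ?_⟩
  · refine le_of_forall_gt_imp_ge_of_dense fun c hc => ?_
    exact limsup_le_of_le hbdd.2.isCoboundedUnder_le ((hle c hc).mono fun n hn => hn.2)
  · refine le_of_forall_lt_imp_le_of_dense fun c hc => ?_
    refine le_limsup_of_frequently_le
      (((H2 c hc).and_eventually lilScale_eventually_pos).mono fun n ⟨hn, hpos⟩ => ?_) hbdd.1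
    exact (le_div_iff₀ hpos).2 hn.le
  · refine le_of_forall_gt_imp_ge_of_dense fun c hc => ?_
    refine liminf_le_of_frequently_le
      (((H3 (-c) (by linarith)).and_eventually lilScale_eventually_pos).mono
        fun n ⟨hn, hpos⟩ => ?_) hbdd.2
    exact (div_le_iff₀ hpos).2 (by linarith)
  · refine le_of_forall_lt_imp_le_of_dense fun c hc => ?_
    exact le_liminf_of_le hbdd.1.isCoboundedUnder_ge
      ((hle (-c) (by linarith)).mono fun n hn => by simpa using hn.1)

end FA.BerryEsseen
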