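import Fermat.Agent.BerryEsseen.Smoothing
import Fermat.Agent.RenyiTuran.CharFun
import Mathlib.Probability.IdentDistrib
import Mathlib.Probability.Independence.CharacteristicFunction
import Mathlib.Probability.Moments.Variance

/-!
# The theorem of Berry and Esseen

For a centred law of variance `1` and third absolute moment `ρ` the characteristic function is
`1 - t² / 2` up to `4 ρ |t|³`, so its `n`th power at `r / √n` is within `O (ρ |r|³ / √n)` times
`exp (- r² / 4)` of the Gaussian one for `|r| ≤ √n / (16 ρ)`.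
-/

set_option autoImplicit false

noncomputable section

namespace FA.BerryEsseen

open MeasureTheory ProbabilityTheory Filter Set
open FA.RenyiTuran (normPdf densDist charDens densityLE_normPdf charDens_normPdf)
open scoped Real Topology

/-- `exp (i y) = 1 + i y - y² / 2 + O (|y|³)` for every real `y`. -/
theorem norm_exp_expansion_le (y : ℝ) :
    ‖Complex.exp ((y : ℂ) * Complex.I) - (1 + (y : ℂ) * Complex.I - ((y ^ 2 / 2 : ℝ) : ℂ))‖ ≤
      4 * |y| ^ 3 := by
  have hnorm : ‖(y : ℂ) * Complex.I‖ = |y| := by simp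
  rcases le_or_gt |y| 1 with h | h
  · have hb := Complex.exp_bound (x := (y : ℂ) * Complex.I) (hnorm.trans_le h) (n := 3)
      (by norm_num)
    have e : ∑ m ∈ Finset.range 3, ((y : ℂ) * Complex.I) ^ m / (m.factorial : ℂ) =
        1 + (y : ℂ) * Complex.I - ((y ^ 2 / 2 : ℝ) : ℂ) := by
      simp [Finset.sum_range_succ, Nat.factorial, mul_pow]
      ring
    rw [e, hnorm] at hb
    refine hb.trans ?_
    rw [mul_comm]
    refine mul_le_mul_of_nonneg_right ?_ (by positivity)
    norm_num [Nat.factorial]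
  · have h2 : |y| ≤ |y| ^ 2 := by nlinarith
    have h3 : |y| ^ 2 ≤ |y| ^ 3 := by nlinarith
    calc ‖Complex.exp ((y : ℂ) * Complex.I) - (1 + (y : ℂ) * Complex.I - ((y ^ 2 / 2 : ℝ) : ℂ))‖
        ≤ ‖Complex.exp ((y : ℂ) * Complex.I)‖ +
            (‖(1 : ℂ) + (y : ℂ) * Complex.I‖ + ‖((y ^ 2 / 2 : ℝ) : ℂ)‖) :=
          (norm_sub_le _ _).trans (add_le_add le_rfl (norm_sub_le _ _))
      _ ≤ 1 + (1 + |y| + y ^ 2 / 2) := by
          rw [Complex.norm_exp_ofReal_mul_I, Complex.norm_real, Real.norm_eq_abs,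
            abs_of_nonneg (by positivity : (0 : ℝ) ≤ y ^ 2 / 2)]
          gcongr
          exact (norm_add_le _ _).trans_eq (by rw [norm_one, hnorm])
      _ ≤ 4 * |y| ^ 3 := by
          have := sq_abs y
          nlinarith

variable {μ : Measure ℝ} [IsProbabilityMeasure μ]

/-- Lyapunov's inequality in the case used. -/
theorem one_le_third_moment (h3 : Integrable (fun y : ℝ => |y| ^ 3) μ)
    (h2i : Integrable (fun y : ℝ => y ^ 2) μ) (h2 : ∫ y, y ^ 2 ∂μ = 1) :
    1 ≤ ∫ y, |y| ^ 3 ∂μ := by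
  have h := integral_mono (f := fun y : ℝ => 3 / 2 * y ^ 2 - 1 / 2) (g := fun y => |y| ^ 3)
    ((h2i.const_mul _).sub (integrable_const _)) h3 fun y => by
      have := sq_abs y
      nlinarith [mul_nonneg (sq_nonneg (|y| - 1)) (show (0 : ℝ) ≤ 2 * |y| + 1 by positivity)]
  rw [integral_sub (h2i.const_mul _) (integrable_const _), integral_const_mul, h2, integral_const,
    probReal_univ, one_smul] at h
  linarith

theorem integrable_of_third_moment (h3 : Integrable (fun y : ℝ => |y| ^ 3) μ) :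
    Integrable (fun y : ℝ => y) μ ∧ Integrable (fun y : ℝ => y ^ 2) μ := by
  refine ⟨((integrable_const (1 : ℝ)).add h3).mono' measurable_id.aestronglyMeasurable
    (Eventually.of_forall fun y => ?_), ((integrable_const (1 : ℝ)).add h3).mono'
    (continuous_pow 2).aestronglyMeasurable (Eventually.of_forall fun y => ?_)⟩
  · show |y| ≤ 1 + |y| ^ 3
    nlinarith [sq_nonneg (|y| - 1), abs_nonneg y]
  · show |y ^ 2| ≤ 1 + |y| ^ 3
    rw [abs_pow]
    nlinarith [sq_nonneg (|y| - 1), abs_nonneg y, mul_nonneg (abs_nonneg y)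
      (sq_nonneg (|y| - 1))]

/-- **The expansion of the characteristic function.** -/
theorem norm_charFun_sub_le (h3 : Integrable (fun y : ℝ => |y| ^ 3) μ) (h1 : ∫ y, y ∂μ = 0)
    (h2 : ∫ y, y ^ 2 ∂μ = 1) (t : ℝ) :
    ‖charFun μ t - ((1 - t ^ 2 / 2 : ℝ) : ℂ)‖ ≤ 4 * (∫ y, |y| ^ 3 ∂μ) * |t| ^ 3 := by
  obtain ⟨hi1, hi2⟩ := integrable_of_third_moment h3
  have hlin : Integrable (fun y : ℝ => ((t * y : ℝ) : ℂ) * Complex.I) μ :=
    ((hi1.const_mul t).ofReal (𝕜 := ℂ)).mul_const _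
  have hquad : Integrable (fun y : ℝ => (((t * y) ^ 2 / 2 : ℝ) : ℂ)) μ :=
    (((hi2.const_mul (t ^ 2)).div_const 2).congr
      (Eventually.of_forall fun y => by simp only [mul_pow]; rfl)).ofReal
  have hP : Integrable (fun y : ℝ => (1 : ℂ) + ((t * y : ℝ) : ℂ) * Complex.I -
      (((t * y) ^ 2 / 2 : ℝ) : ℂ)) μ := ((integrable_const _).add hlin).sub hquad
  have e : ((1 - t ^ 2 / 2 : ℝ) : ℂ) = ∫ y, ((1 : ℂ) + ((t * y : ℝ) : ℂ) * Complex.I -
      (((t * y) ^ 2 / 2 : ℝ) : ℂ)) ∂μ := by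
    rw [integral_sub (f := fun y : ℝ => (1 : ℂ) + ((t * y : ℝ) : ℂ) * Complex.I)
        ((integrable_const (1 : ℂ)).add hlin) hquad,
      integral_add (integrable_const (1 : ℂ)) hlin, integral_const, probReal_univ, one_smul,
      integral_mul_const, integral_complex_ofReal, integral_const_mul, h1,
      integral_complex_ofReal, integral_div]
    simp only [mul_pow, integral_const_mul, h2]
    push_cast
    ring
  have hexp : Integrable (fun y : ℝ => Complex.exp ((t : ℂ) * y * Complex.I)) μ :=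
    .of_bound (Continuous.aestronglyMeasurable (by fun_prop)) 1
      (Eventually.of_forall fun y => le_of_eq (by
        rw [← Complex.ofReal_mul, Complex.norm_exp_ofReal_mul_I]))
  rw [charFun_apply_real, e, ← integral_sub hexp hP, mul_right_comm, ← integral_const_mul]
  refine norm_integral_le_of_norm_le (h3.const_mul _) (Eventually.of_forall fun y => ?_)
  rw [← Complex.ofReal_mul]
  refine (norm_exp_expansion_le (t * y)).trans_eq ?_
  rw [abs_mul, mul_pow]
  ring

/-- **The powers of the characteristic function.** -/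
theorem norm_charFun_pow_sub_le (h3 : Integrable (fun y : ℝ => |y| ^ 3) μ) (h1 : ∫ y, y ∂μ = 0)
    (h2 : ∫ y, y ^ 2 ∂μ = 1) {n : ℕ} (hn : 0 < n) {r : ℝ}
    (hr : |r| ≤ Real.sqrt n / (16 * ∫ y, |y| ^ 3 ∂μ)) :
    ‖charFun μ (r / Real.sqrt n) ^ n - ((Real.exp (-r ^ 2 / 2) : ℝ) : ℂ)‖ ≤
      |r| * (10 * (∫ y, |y| ^ 3 ∂μ) / Real.sqrt n * (r ^ 2 * Real.exp (-r ^ 2 / 4))) := by
  set ρ := ∫ y, |y| ^ 3 ∂μ
  have hρ : 1 ≤ ρ := one_le_third_moment h3 (integrable_of_third_moment h3).2 h2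
  set s := Real.sqrt n with hs
  have hs0 : 0 < s := Real.sqrt_pos.2 (Nat.cast_pos.2 hn)
  set t := r / s with ht
  have ht' : |t| ≤ 1 / (16 * ρ) := by
    rw [ht, abs_div, abs_of_pos hs0, div_le_iff₀ hs0]
    exact hr.trans_eq (by ring)
  have hρt : ρ * |t| ≤ 1 / 16 := by
    have := mul_le_mul_of_nonneg_left ht' (zero_le_one.trans hρ)
    rwa [show ρ * (1 / (16 * ρ)) = 1 / 16 by field_simp] at this
  have ht1 : |t| ≤ 1 / 16 := le_trans (le_mul_of_one_le_left (abs_nonneg t) hρ) hρt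
  have hsq := sq_abs t
  have hexp := norm_charFun_sub_le h3 h1 h2 t
  have hcube : |t| ^ 3 = |t| * t ^ 2 := by rw [← hsq]; ring
  have hsmall : 4 * ρ * |t| ^ 3 ≤ t ^ 2 / 4 := by
    rw [hcube]
    nlinarith [mul_le_mul_of_nonneg_right hρt (sq_nonneg t)]
  set q := Real.exp (-t ^ 2 / 4)
  have ht2 : t ^ 2 ≤ 1 := by nlinarith [abs_nonneg t]
  have ha : ‖charFun μ t‖ ≤ q := by
    have h := norm_le_insert' (charFun μ t) ((1 - t ^ 2 / 2 : ℝ) : ℂ)
    rw [Complex.norm_real, Real.norm_eq_abs, abs_of_nonneg (by linarith)] at h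
    refine le_trans ?_ (Real.add_one_le_exp _)
    linarith
  have hb : ‖((Real.exp (-t ^ 2 / 2) : ℝ) : ℂ)‖ ≤ q := by
    rw [Complex.norm_real, Real.norm_eq_abs, abs_of_pos (Real.exp_pos _)]
    exact Real.exp_le_exp.2 (by linarith [sq_nonneg t])
  have hdiff : ‖charFun μ t - ((Real.exp (-t ^ 2 / 2) : ℝ) : ℂ)‖ ≤ 5 * ρ * |t| ^ 3 := by
    refine (norm_sub_le_norm_sub_add_norm_sub _ ((1 - t ^ 2 / 2 : ℝ) : ℂ) _).trans ?_
    have hx : |-t ^ 2 / 2| ≤ 1 :=
      abs_le.2 ⟨by nlinarith [sq_nonneg t], by nlinarith [sq_nonneg t]⟩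
    have h := Real.abs_exp_sub_one_sub_id_le hx
    rw [← Complex.ofReal_sub, Complex.norm_real, Real.norm_eq_abs, abs_sub_comm,
      show Real.exp (-t ^ 2 / 2) - (1 - t ^ 2 / 2) = Real.exp (-t ^ 2 / 2) - 1 - -t ^ 2 / 2 by ring]
    have h4 : (-t ^ 2 / 2) ^ 2 ≤ ρ * |t| ^ 3 := by
      rw [hcube]
      have : t ^ 2 ≤ |t| := by nlinarith [abs_nonneg t]
      nlinarith [mul_le_mul_of_nonneg_right this (sq_nonneg t),
        mul_le_mul_of_nonneg_right hρ (mul_nonneg (abs_nonneg t) (sq_nonneg t))]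
    linarith
  -- telescope
  have htel : ∀ k : ℕ, ‖charFun μ t ^ k - ((Real.exp (-t ^ 2 / 2) : ℝ) : ℂ) ^ k‖ ≤
      k * q ^ (k - 1) * ‖charFun μ t - ((Real.exp (-t ^ 2 / 2) : ℝ) : ℂ)‖ := by
    intro k
    rw [← geom_sum₂_mul, norm_mul]
    refine mul_le_mul_of_nonneg_right ((norm_sum_le _ _).trans
      ((Finset.sum_le_sum (g := fun _ => q ^ (k - 1)) fun i hi => ?_).trans_eq (by simp)))
      (norm_nonneg _)
    rw [norm_mul, norm_pow, norm_pow, show q ^ (k - 1) = q ^ i * q ^ (k - 1 - i) by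
      rw [← pow_add]; congr 1; have := Finset.mem_range.1 hi; omega]
    exact mul_le_mul (pow_le_pow_left₀ (norm_nonneg _) ha _)
      (pow_le_pow_left₀ (norm_nonneg _) hb _) (by positivity) (by positivity)
  have hr2 : r ^ 2 = n * t ^ 2 := by
    rw [ht, div_pow, hs, Real.sq_sqrt (Nat.cast_nonneg n)]
    field_simp [(Nat.cast_pos.2 hn : (0 : ℝ) < n).ne']
  have hgauss : ((Real.exp (-r ^ 2 / 2) : ℝ) : ℂ) = ((Real.exp (-t ^ 2 / 2) : ℝ) : ℂ) ^ n := by
    rw [← Complex.ofReal_pow, ← Real.exp_nat_mul, hr2]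
    congr 2
    ring
  have hq : q ^ (n - 1) ≤ 2 * Real.exp (-r ^ 2 / 4) := by
    rw [show q ^ (n - 1) = Real.exp (-r ^ 2 / 4) * Real.exp (t ^ 2 / 4) by
      rw [← Real.exp_nat_mul, ← Real.exp_add, hr2, Nat.cast_sub (by omega), Nat.cast_one]
      congr 1
      ring, mul_comm 2]
    refine mul_le_mul_of_nonneg_left ?_ (Real.exp_pos _).le
    refine le_trans (Real.exp_le_exp.2 (show t ^ 2 / 4 ≤ 1 / 4 by linarith)) ?_
    refine (Real.exp_bound_div_one_sub_of_interval (by norm_num) (by norm_num)).trans ?_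
    norm_num
  rw [hgauss]
  refine (htel n).trans ((mul_le_mul (mul_le_mul_of_nonneg_left hq (Nat.cast_nonneg n)) hdiff
    (norm_nonneg _) (by positivity)).trans_eq ?_)
  have e : (n : ℝ) = s ^ 2 := (Real.sq_sqrt (Nat.cast_nonneg n)).symm
  rw [ht, abs_div, abs_of_pos hs0, e, ← sq_abs r]
  field_simp
  ring

/-- The standard normal distribution function. -/
def normCdf (x : ℝ) : ℝ := densDist normPdf x

theorem integral_sq_mul_exp_le {T : ℝ} (hT : 0 ≤ T) :
    ∫ r in (-T)..T, r ^ 2 * Real.exp (-r ^ 2 / 4) ≤ 48 := by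
  have hg : Integrable fun r : ℝ => 8 * Real.exp (-(1 / 8) * r ^ 2) :=
    (integrable_exp_neg_mul_sq (by norm_num)).const_mul 8
  have hle : ∀ r : ℝ, r ^ 2 * Real.exp (-r ^ 2 / 4) ≤ 8 * Real.exp (-(1 / 8) * r ^ 2) := fun r => by
    rw [show -r ^ 2 / 4 = -(1 / 8) * r ^ 2 + -(r ^ 2 / 8) by ring, Real.exp_add, ← mul_assoc]
    have h1 : r ^ 2 * Real.exp (-(r ^ 2 / 8)) ≤ 8 := by
      rw [Real.exp_neg, ← div_eq_mul_inv, div_le_iff₀ (Real.exp_pos _)]
      linarith [Real.add_one_le_exp (r ^ 2 / 8)]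
    calc r ^ 2 * Real.exp (-(1 / 8) * r ^ 2) * Real.exp (-(r ^ 2 / 8))
        = Real.exp (-(1 / 8) * r ^ 2) * (r ^ 2 * Real.exp (-(r ^ 2 / 8))) := by ring
      _ ≤ Real.exp (-(1 / 8) * r ^ 2) * 8 := mul_le_mul_of_nonneg_left h1 (Real.exp_pos _).le
      _ = _ := by ring
  refine (intervalIntegral.integral_mono_on (by linarith)
    (Continuous.intervalIntegrable (by fun_prop) _ _) hg.intervalIntegrable
    fun r _ => hle r).trans ?_
  rw [intervalIntegral.integral_of_le (by linarith)]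
  refine (setIntegral_le_integral hg (Eventually.of_forall fun r => by positivity)).trans ?_
  rw [integral_const_mul, integral_gaussian]
  have : Real.sqrt (π / (1 / 8)) ≤ 6 := by
    rw [Real.sqrt_le_iff]
    exact ⟨by norm_num, by linarith [Real.pi_le_four]⟩
  linarith

variable {Ω : Type*} [MeasurableSpace Ω] {P : Measure Ω} [IsProbabilityMeasure P]

/-- Independent copies of a centred variable of variance `1` with a third moment. -/
structure Standard (X : ℕ → Ω → ℝ) (P : Measure Ω) : Prop where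
  meas : ∀ i, Measurable (X i)
  indep : iIndepFun X P
  ident : ∀ i, IdentDistrib (X i) (X 0) P P
  cube : Integrable (fun ω => |X 0 ω| ^ 3) P
  mean : ∫ ω, X 0 ω ∂P = 0
  second : ∫ ω, X 0 ω ^ 2 ∂P = 1

/-- The third absolute moment. -/
def thirdMoment (X : ℕ → Ω → ℝ) (P : Measure Ω) : ℝ := ∫ ω, |X 0 ω| ^ 3 ∂P

/-- **The theorem of Berry and Esseen**, standardised. -/
theorem Standard.abs_sub_normCdf_le {X : ℕ → Ω → ℝ} (h : Standard X P) {n : ℕ} (hn : 0 < n)
    (x : ℝ) :
    |P.real {ω | ∑ i ∈ Finset.range n, X i ω ≤ x * Real.sqrt n} - normCdf x| ≤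
      8000 * thirdMoment X P / Real.sqrt n := by
  set μ := P.map (X 0)
  have : IsProbabilityMeasure μ := Measure.isProbabilityMeasure_map (h.meas 0).aemeasurable
  have hmap : ∀ g : ℝ → ℝ, Continuous g → ∫ y, g y ∂μ = ∫ ω, g (X 0 ω) ∂P := fun g hg =>
    integral_map (h.meas 0).aemeasurable hg.aestronglyMeasurable
  have h3 : Integrable (fun y : ℝ => |y| ^ 3) μ :=
    (integrable_map_measure (Continuous.aestronglyMeasurable (by fun_prop))
      (h.meas 0).aemeasurable).2 h.cube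
  have h1 : ∫ y, y ∂μ = 0 := (hmap _ continuous_id).trans h.mean
  have h2 : ∫ y, y ^ 2 ∂μ = 1 := (hmap _ (continuous_pow 2)).trans h.second
  have hρ : ∫ y, |y| ^ 3 ∂μ = thirdMoment X P := hmap _ (by fun_prop)
  obtain ⟨hi1, hi2⟩ := integrable_of_third_moment h3
  have hρ1 := one_le_third_moment h3 hi2 h2
  set s := Real.sqrt n
  have hs : 0 < s := Real.sqrt_pos.2 (Nat.cast_pos.2 hn)
  set S : Ω → ℝ := fun ω => s⁻¹ * ∑ i ∈ Finset.range n, X i ω
  have hSm : Measurable S := (Finset.measurable_sum _ fun i _ => h.meas i).const_mul _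
  have : IsProbabilityMeasure (P.map S) := Measure.isProbabilityMeasure_map hSm.aemeasurable
  have hint : Integrable (fun y : ℝ => y) (P.map S) := by
    refine (integrable_map_measure measurable_id.aestronglyMeasurable hSm.aemeasurable).2 ?_
    refine (integrable_finsetSum _ fun i _ => ?_).const_mul _
    exact (h.ident i).integrable_iff.2 ((integrable_map_measure measurable_id.aestronglyMeasurable
      (h.meas 0).aemeasurable).1 hi1)
  have hchar : ∀ r, charFun (P.map S) r = charFun μ (r / s) ^ n := fun r => by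
    rw [charFun_map_mul_comp (Finset.aemeasurable_fun_sum _ fun i _ => (h.meas i).aemeasurable),
      (h.indep.restrict _).charFun_map_fun_finsetSum_eq_prod fun i _ => (h.meas i).aemeasurable]
    simp [fun i => (h.ident i).map_eq, μ, div_eq_inv_mul]
  set ρ := ∫ y, |y| ^ 3 ∂μ
  set T := s / (16 * ρ) with hT
  have hT0 : 0 < T := by positivity
  have hB : IntervalIntegrable (fun r => 10 * ρ / s * (r ^ 2 * Real.exp (-r ^ 2 / 4))) volume
      (-T) T := Continuous.intervalIntegrable (by fun_prop) _ _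
  have key := abs_measureReal_Iic_sub_le hint densityLE_normPdf one_pos hT0 hB
    (fun r => by positivity) (fun r hr => by
      rw [hchar, charDens_normPdf]
      exact norm_charFun_pow_sub_le h3 h1 h2 hn hr) x
  rw [intervalIntegral.integral_const_mul, show (P.map S).real (Iic x) =
      P.real {ω | ∑ i ∈ Finset.range n, X i ω ≤ x * s} by
    rw [map_measureReal_apply hSm measurableSet_Iic]
    congr 1
    ext ω
    show s⁻¹ * _ ≤ x ↔ _
    rw [inv_mul_le_iff₀ hs, mul_comm]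
    rfl] at key
  refine key.trans ?_
  rw [← hρ]
  have hA : 10 * ρ / s * ∫ r in (-T)..T, r ^ 2 * Real.exp (-r ^ 2 / 4) ≤ 10 * ρ / s * 48 :=
    mul_le_mul_of_nonneg_left (integral_sq_mul_exp_le hT0.le) (by positivity)
  have hB' : 320 * 1 / T = 5120 * ρ / s := by
    rw [hT]
    field_simp
    ring
  rw [hB']
  have e1 : 6 * (10 * ρ / s * 48) = 2880 * (ρ / s) := by ring
  have e2 : 5120 * ρ / s = 5120 * (ρ / s) := by ring
  rw [show 8000 * ρ / s = 8000 * (ρ / s) by ring]
  linarith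

end FA.BerryEsseen
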