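import Fermat.Agent.BerryEsseen.Main

/-!
# Tails and the maximal inequality of Ottaviani

The distribution function of the normal law at `-y` lies between `exp (- (y + 1)² / 2) / 3` and
`exp (- y² / 2)`; the first passage below `-a` is independent of the later increments, each of
which stays below twice the standard deviation with probability at least `1 / 2`.
-/

set_option autoImplicit false

noncomputable section

namespace FA.BerryEsseen

open MeasureTheory ProbabilityTheory Filter Set
open FA.RenyiTuran (normPdf densDist densityLE_normPdf)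
open scoped Real Topology

theorem normCdf_neg_le {y : ℝ} (hy : 0 ≤ y) : normCdf (-y) ≤ Real.exp (-y ^ 2 / 2) := by
  have hp := densityLE_normPdf
  have hs : Integrable fun z => normPdf (z + y) := hp.integrable.comp_add_right y
  have h0 : ∀ z, 0 ≤ Real.exp (-y ^ 2 / 2) * normPdf (z + y) := fun z =>
    mul_nonneg (Real.exp_pos _).le (hp.nonneg _)
  calc normCdf (-y) ≤ ∫ z in Iic (-y), Real.exp (-y ^ 2 / 2) * normPdf (z + y) := by
        refine setIntegral_mono_on hp.integrable.integrableOn (hs.const_mul _).integrableOn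
          measurableSet_Iic fun z (hz : z ≤ -y) => ?_
        rw [normPdf, normPdf, mul_div_assoc', ← Real.exp_add]
        refine div_le_div_of_nonneg_right (Real.exp_le_exp.2 ?_) (Real.sqrt_nonneg _)
        nlinarith [mul_nonneg hy (show 0 ≤ -(z + y) by linarith)]
    _ ≤ ∫ z, Real.exp (-y ^ 2 / 2) * normPdf (z + y) :=
        setIntegral_le_integral (hs.const_mul _) (Eventually.of_forall h0)
    _ = _ := by rw [integral_const_mul, integral_add_right_eq_self normPdf, hp.integral_eq, mul_one]

theorem le_normCdf_neg {y : ℝ} (hy : 0 ≤ y) :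
    Real.exp (-(y + 1) ^ 2 / 2) / 3 ≤ normCdf (-y) := by
  have hp := densityLE_normPdf
  have h1 := (FA.RenyiTuran.densDist_mem hp (-(y + 1))).1
  have h2 : ∫ _ in (-(y + 1))..(-y), Real.exp (-(y + 1) ^ 2 / 2) / 3 ≤
      ∫ z in (-(y + 1))..(-y), normPdf z := by
    refine intervalIntegral.integral_mono_on (by linarith) intervalIntegrable_const
      (hp.cont.intervalIntegrable _ _) fun z hz => ?_
    obtain ⟨hz1, hz2⟩ := hz
    have h3 : √(2 * π) ≤ 3 :=
      Real.sqrt_le_iff.2 ⟨by norm_num, by linarith [Real.pi_le_four]⟩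
    rw [normPdf]
    exact div_le_div₀ (Real.exp_pos _).le (Real.exp_le_exp.2 (by nlinarith))
      (zero_lt_one.trans_le FA.RenyiTuran.one_le_sqrt_two_pi) h3
  rw [intervalIntegral.integral_const, smul_eq_mul, show -y - -(y + 1) = 1 by ring, one_mul,
    ← FA.RenyiTuran.densDist_sub hp] at h2
  show _ ≤ densDist normPdf (-y)
  linarith

variable {Ω : Type*} [MeasurableSpace Ω] {P : Measure Ω} [IsProbabilityMeasure P]
  {X : ℕ → Ω → ℝ}

/-- The sum of the first `n` terms. -/
def partialSum (X : ℕ → Ω → ℝ) (n : ℕ) (ω : Ω) : ℝ := ∑ i ∈ Finset.range n, X i ω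

omit [IsProbabilityMeasure P] in
theorem Standard.measurable_partialSum (h : Standard X P) (n : ℕ) :
    Measurable (partialSum X n) :=
  Finset.measurable_sum _ fun i _ => h.meas i

omit [IsProbabilityMeasure P] in
theorem Standard.neg (h : Standard X P) : Standard (fun i ω => -X i ω) P where
  meas i := (h.meas i).neg
  indep := h.indep.comp (fun _ => Neg.neg) fun _ => measurable_neg
  ident i := (h.ident i).comp measurable_neg
  cube := by simpa using h.cube
  mean := by rw [integral_neg, h.mean, neg_zero]
  second := by simpa using h.second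

omit [IsProbabilityMeasure P] in
theorem Standard.shift (h : Standard X P) (m : ℕ) : Standard (fun i => X (m + i)) P where
  meas _ := h.meas _
  indep := h.indep.precomp (add_right_injective m)
  ident _ := (h.ident _).trans (h.ident _).symm
  cube := ((h.ident (m + 0)).comp (continuous_abs.measurable.pow_const 3)).integrable_iff.2 h.cube
  mean := (h.ident (m + 0)).integral_eq.trans h.mean
  second := ((h.ident (m + 0)).comp (measurable_id.pow_const 2)).integral_eq.trans h.second

omit [IsProbabilityMeasure P] in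
theorem Standard.thirdMoment_shift (h : Standard X P) (m : ℕ) :
    thirdMoment (fun i => X (m + i)) P = thirdMoment X P :=
  ((h.ident (m + 0)).comp (continuous_abs.measurable.pow_const 3)).integral_eq

/-- **The lower tail, from above.** -/
theorem Standard.tail_le (h : Standard X P) {n : ℕ} (hn : 0 < n) {y : ℝ} (hy : 0 ≤ y) :
    P.real {ω | partialSum X n ω ≤ -(y * Real.sqrt n)} ≤
      Real.exp (-y ^ 2 / 2) + 8000 * thirdMoment X P / Real.sqrt n := by
  have := (abs_le.1 (h.abs_sub_normCdf_le hn (-y))).2
  simp only [neg_mul] at this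
  show P.real {ω | ∑ i ∈ Finset.range n, X i ω ≤ -(y * Real.sqrt n)} ≤ _
  linarith [normCdf_neg_le hy]

/-- **The lower tail, from below.** -/
theorem Standard.le_tail (h : Standard X P) {n : ℕ} (hn : 0 < n) {y : ℝ} (hy : 0 ≤ y) :
    Real.exp (-(y + 1) ^ 2 / 2) / 3 - 8000 * thirdMoment X P / Real.sqrt n ≤
      P.real {ω | partialSum X n ω ≤ -(y * Real.sqrt n)} := by
  have := (abs_le.1 (h.abs_sub_normCdf_le hn (-y))).1
  simp only [neg_mul] at this
  show _ ≤ P.real {ω | ∑ i ∈ Finset.range n, X i ω ≤ -(y * Real.sqrt n)}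
  linarith [le_normCdf_neg hy]

/-- The terms before `m`, the others replaced by `0`. -/
def early (X : ℕ → Ω → ℝ) (m : ℕ) (ω : Ω) (i : ℕ) : ℝ := if i < m then X i ω else 0

/-- The terms from `m` to `N`, the others replaced by `0`. -/
def late (X : ℕ → Ω → ℝ) (m N : ℕ) (ω : Ω) (i : ℕ) : ℝ := if m ≤ i ∧ i < N then X i ω else 0

omit [MeasurableSpace Ω] in
theorem sum_early (X : ℕ → Ω → ℝ) {j m : ℕ} (hj : j ≤ m) (ω : Ω) :
    ∑ i ∈ Finset.range j, early X m ω i = partialSum X j ω :=
  Finset.sum_congr rfl fun _ hi => if_pos ((Finset.mem_range.1 hi).trans_le hj)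

omit [MeasurableSpace Ω] in
theorem sum_late (X : ℕ → Ω → ℝ) {m N : ℕ} (hm : m ≤ N) (ω : Ω) :
    ∑ i ∈ Finset.Ico m N, late X m N ω i = partialSum X N ω - partialSum X m ω := by
  rw [partialSum, partialSum, ← Finset.sum_Ico_eq_sub _ hm]
  exact Finset.sum_congr rfl fun _ hi => if_pos (Finset.mem_Ico.1 hi)

omit [IsProbabilityMeasure P] in
/-- **Events of the past and of the future are independent.** -/
theorem Standard.measure_early_inter_late (h : Standard X P) {m N : ℕ} {A B : Set (ℕ → ℝ)}
    (hA : MeasurableSet A) (hB : MeasurableSet B) :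
    P (early X m ⁻¹' A ∩ late X m N ⁻¹' B) = P (early X m ⁻¹' A) * P (late X m N ⁻¹' B) := by
  have hext : ∀ S : Finset ℕ, Measurable fun (f : S → ℝ) (i : ℕ) =>
      if hi : i ∈ S then f ⟨i, hi⟩ else 0 := fun S => measurable_pi_iff.2 fun i => by
    by_cases hi : i ∈ S
    · simp only [dif_pos hi]
      exact measurable_pi_apply _
    · simp only [dif_neg hi]
      exact measurable_const
  have hd : Disjoint (Finset.range m) (Finset.Ico m N) := Finset.disjoint_left.2 fun i h1 h2 =>
    absurd (Finset.mem_range.1 h1) (not_lt.2 (Finset.mem_Ico.1 h2).1)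
  have hi := (h.indep.indepFun_finset _ _ hd h.meas).comp (hext _) (hext _)
  have e1 : early X m = fun ω (i : ℕ) => if hi : i ∈ Finset.range m then X i ω else 0 := by
    funext ω i
    simp [early]
  have e2 : late X m N = fun ω (i : ℕ) => if hi : i ∈ Finset.Ico m N then X i ω else 0 := by
    funext ω i
    simp [late]
  rw [e1, e2]
  exact indepFun_iff_measure_inter_preimage_eq_mul.1 hi A B hA hB

/-- An increment is at most twice the standard deviation half of the time. -/
theorem Standard.half_le_increment (h : Standard X P) {j N : ℕ} (hj : j ≤ N) (hN : 0 < N) :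
    (1 / 2 : ℝ) ≤ P.real {ω | partialSum X N ω - partialSum X j ω < 2 * Real.sqrt N} := by
  set D : Ω → ℝ := fun ω => ∑ i ∈ Finset.Ico j N, X i ω
  have hDeq : ∀ ω, partialSum X N ω - partialSum X j ω = D ω := fun ω => by
    rw [partialSum, partialSum, ← Finset.sum_Ico_eq_sub _ hj]
  have hL : ∀ i, MemLp (X i) 2 P := fun i => by
    refine (h.ident i).memLp_iff.2
      ((memLp_two_iff_integrable_sq (h.meas 0).aestronglyMeasurable).2 ?_)
    refine ((integrable_const (1 : ℝ)).add h.cube).mono'
      ((h.meas 0).pow_const 2).aestronglyMeasurable (Eventually.of_forall fun ω => ?_)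
    show |X 0 ω ^ 2| ≤ 1 + |X 0 ω| ^ 3
    rw [abs_pow]
    nlinarith [mul_nonneg (abs_nonneg (X 0 ω)) (sq_nonneg (|X 0 ω| - 1)),
      sq_nonneg (|X 0 ω| - 1), abs_nonneg (X 0 ω)]
  have hmean : ∫ ω, D ω ∂P = 0 := by
    rw [integral_finsetSum _ fun i _ => (hL i).integrable one_le_two]
    exact Finset.sum_eq_zero fun i _ => (h.ident i).integral_eq.trans h.mean
  have hvar : variance D P = (N : ℝ) - j := by
    rw [show D = ∑ i ∈ Finset.Ico j N, X i from funext fun ω => by simp [D],
      IndepFun.variance_sum (fun i _ => hL i) fun i _ k _ hik => h.indep.indepFun hik]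
    rw [Finset.sum_congr rfl fun i _ => show variance (X i) P = 1 by
      rw [variance_of_integral_eq_zero (h.meas i).aemeasurable
        ((h.ident i).integral_eq.trans h.mean)]
      exact ((h.ident i).comp (measurable_id.pow_const 2)).integral_eq.trans h.second]
    simp [Nat.cast_sub hj]
  have hs : 0 < 2 * Real.sqrt N := by positivity
  have hDm : Measurable D := Finset.measurable_sum _ fun i _ => h.meas i
  have hch := meas_ge_le_variance_div_sq (memLp_finsetSum _ fun i _ => hL i : MemLp D 2 P) hs
  rw [hmean, hvar, mul_pow, Real.sq_sqrt (Nat.cast_nonneg N)] at hch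
  simp only [sub_zero] at hch
  have hbad : P.real {ω | 2 * Real.sqrt N ≤ |D ω|} ≤ 1 / 2 := by
    rw [measureReal_def]
    refine ENNReal.toReal_le_of_le_ofReal (by norm_num) (hch.trans (ENNReal.ofReal_le_ofReal ?_))
    rw [div_le_iff₀ (by positivity)]
    linarith [(Nat.cast_nonneg j : (0 : ℝ) ≤ j), (Nat.cast_nonneg N : (0 : ℝ) ≤ N)]
  have hc := probReal_compl_eq_one_sub (μ := P)
    (measurableSet_le measurable_const hDm.abs : MeasurableSet {ω | 2 * Real.sqrt N ≤ |D ω|})
  have hsub : P.real {ω | 2 * Real.sqrt N ≤ |D ω|}ᶜ ≤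
      P.real {ω | partialSum X N ω - partialSum X j ω < 2 * Real.sqrt N} := by
    refine measureReal_mono fun ω hω => ?_
    have hω' : |D ω| < 2 * Real.sqrt N := not_le.1 hω
    show partialSum X N ω - partialSum X j ω < 2 * Real.sqrt N
    rw [hDeq]
    exact (le_abs_self _).trans_lt hω'
  linarith

/-- **The maximal inequality of Ottaviani.** -/
theorem Standard.maximal_le (h : Standard X P) {N : ℕ} (hN : 0 < N) (a : ℝ) :
    P.real {ω | ∃ j ≤ N, partialSum X j ω ≤ -a} ≤
      2 * P.real {ω | partialSum X N ω ≤ -a + 2 * Real.sqrt N} := by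
  set A : ℕ → Set Ω := fun j =>
    {ω | partialSum X j ω ≤ -a ∧ ∀ i < j, ¬ partialSum X i ω ≤ -a}
  set G : ℕ → Set Ω := fun j => {ω | partialSum X N ω - partialSum X j ω < 2 * Real.sqrt N}
  have hmS := h.measurable_partialSum
  have hA : ∀ j, MeasurableSet (A j) := fun j => by
    have e : A j = {ω | partialSum X j ω ≤ -a} ∩
        ⋂ i ∈ Finset.range j, {ω | partialSum X i ω ≤ -a}ᶜ := by
      ext ω
      simp [A]
    rw [e]
    exact (measurableSet_le (hmS j) measurable_const).inter
      (Finset.measurableSet_biInter _ fun i _ =>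
        (measurableSet_le (hmS i) measurable_const).compl)
  have hG : ∀ j, MeasurableSet (G j) := fun j =>
    measurableSet_lt ((hmS N).sub (hmS j)) measurable_const
  have hdisj : Set.Pairwise (↑(Finset.range (N + 1)) : Set ℕ)
      (Function.onFun Disjoint fun j => A j ∩ G j) := fun i _ j _ hij =>
    Set.disjoint_left.2 fun ω hi hj => by
      rcases lt_or_gt_of_ne hij with hlt | hlt
      · exact hj.1.2 i hlt hi.1.1
      · exact hi.1.2 j hlt hj.1.1
  have hprod : ∀ j ≤ N, P.real (A j ∩ G j) = P.real (A j) * P.real (G j) := by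
    intro j hj
    set SA := {f : ℕ → ℝ | ∑ i ∈ Finset.range j, f i ≤ -a ∧
      ∀ k < j, ¬ ∑ i ∈ Finset.range k, f i ≤ -a}
    set SG := {f : ℕ → ℝ | ∑ i ∈ Finset.Ico j N, f i < 2 * Real.sqrt N}
    have hsum : ∀ s : Finset ℕ, Measurable fun f : ℕ → ℝ => ∑ i ∈ s, f i := fun s =>
      Finset.measurable_sum _ fun i _ => measurable_pi_apply i
    have hSA : MeasurableSet SA := by
      have e : SA = {f : ℕ → ℝ | ∑ i ∈ Finset.range j, f i ≤ -a} ∩
          ⋂ k ∈ Finset.range j, {f : ℕ → ℝ | ∑ i ∈ Finset.range k, f i ≤ -a}ᶜ := by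
        ext f
        simp [SA]
      rw [e]
      exact (measurableSet_le (hsum _) measurable_const).inter
        (Finset.measurableSet_biInter _ fun k _ =>
          (measurableSet_le (hsum _) measurable_const).compl)
    have hSG : MeasurableSet SG := measurableSet_lt (hsum _) measurable_const
    have eA : A j = early X j ⁻¹' SA := by
      ext ω
      show _ ∧ _ ↔ _ ∧ _
      rw [sum_early X le_rfl ω]
      exact and_congr_right fun _ => forall₂_congr fun k hk => by rw [sum_early X hk.le ω]
    have eG : G j = late X j N ⁻¹' SG := by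
      ext ω
      simp only [G, SG, mem_ofPred_eq, mem_preimage, sum_late X hj ω]
    simp only [measureReal_def, eA, eG, h.measure_early_inter_late hSA hSG, ENNReal.toReal_mul]
  have hcover : {ω | ∃ j ≤ N, partialSum X j ω ≤ -a} ⊆ ⋃ j ∈ Finset.range (N + 1), A j := by
    rintro ω ⟨j, hj, hω⟩
    classical
    have hex : ∃ i, partialSum X i ω ≤ -a := ⟨j, hω⟩
    refine mem_iUnion₂.2 ⟨Nat.find hex, Finset.mem_range.2 (Nat.lt_succ_of_le
      ((Nat.find_min' hex hω).trans hj)), Nat.find_spec hex, fun i hi => Nat.find_min hex hi⟩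
  calc P.real {ω | ∃ j ≤ N, partialSum X j ω ≤ -a}
      ≤ ∑ j ∈ Finset.range (N + 1), P.real (A j) :=
        (measureReal_mono hcover (measure_ne_top _ _)).trans (measureReal_biUnion_finset_le _ _)
    _ ≤ ∑ j ∈ Finset.range (N + 1), 2 * P.real (A j ∩ G j) := by
        refine Finset.sum_le_sum fun j hj => ?_
        have hj' : j ≤ N := Nat.lt_succ_iff.1 (Finset.mem_range.1 hj)
        rw [hprod j hj']
        have := mul_le_mul_of_nonneg_left (h.half_le_increment hj' hN)
          (measureReal_nonneg (μ := P) (s := A j))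
        linarith
    _ = 2 * P.real (⋃ j ∈ Finset.range (N + 1), A j ∩ G j) := by
        rw [measureReal_biUnion_finset hdisj (fun j _ => (hA j).inter (hG j))
          (fun _ _ => measure_ne_top _ _), Finset.mul_sum]
    _ ≤ _ := by
        refine mul_le_mul_of_nonneg_left (measureReal_mono ?_) zero_le_two
        refine iUnion₂_subset fun j _ ω hω => ?_
        obtain ⟨⟨h1, -⟩, h2⟩ := hω
        have h2' : partialSum X N ω - partialSum X j ω < 2 * Real.sqrt N := h2
        show partialSum X N ω ≤ -a + 2 * Real.sqrt N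
        linarith

end FA.BerryEsseen
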