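import Fermat.Agent.RenyiTuran.Smoothing
import Mathlib.MeasureTheory.Function.Floor
import Mathlib.MeasureTheory.Measure.CharacteristicFunction.Basic

/-!
# The smoothing inequality of Esseen for a law with a first moment

The law is replaced by its image under rounding down to a multiple of `1 / N` on `[-N, N]` and to
`0` outside; characteristic functions move by `|r| o (1)`, distribution functions by `o (1)` and a
shift by `1 / N`.
-/

set_option autoImplicit false

noncomputable section

namespace FA.BerryEsseen

open MeasureTheory Filter Set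
open FA.RenyiTuran (DensityLE densDist charDens charSum stepDist esseen_smoothing_le
  densDist_lipschitz continuous_charDens)
open scoped Topology

/-- The index of the rounded value. -/
def roundIndex (N : ℕ) (y : ℝ) : ℤ := if |y| ≤ N then ⌊y * N⌋ else 0

theorem measurable_roundIndex (N : ℕ) : Measurable (roundIndex N) :=
  Measurable.ite (measurableSet_le continuous_abs.measurable measurable_const)
    (Int.measurable_floor.comp (measurable_id.mul_const _)) measurable_const

theorem roundIndex_mem (N : ℕ) (y : ℝ) :
    roundIndex N y ∈ Finset.Icc (-((N : ℤ) * N)) ((N : ℤ) * N) := by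
  have h0 : (0 : ℤ) ≤ (N : ℤ) * N := by positivity
  rw [Finset.mem_Icc, roundIndex]
  split_ifs with h
  · obtain ⟨h1, h2⟩ := abs_le.1 h
    have hN : (0 : ℝ) ≤ N := Nat.cast_nonneg N
    constructor
    · rw [Int.le_floor]
      push_cast
      nlinarith
    · refine (Int.cast_le (R := ℝ)).1 ((Int.floor_le (y * N)).trans ?_)
      push_cast
      nlinarith
  · omega

/-- The rounded value. -/
def roundVal (N : ℕ) (y : ℝ) : ℝ := (roundIndex N y : ℝ) / N

theorem roundVal_bounds {N : ℕ} (hN : 0 < N) {y : ℝ} (h : |y| ≤ N) :
    y - 1 / N ≤ roundVal N y ∧ roundVal N y ≤ y := by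
  have hN' : (0 : ℝ) < N := Nat.cast_pos.2 hN
  rw [roundVal, roundIndex, if_pos h]
  refine ⟨?_, (div_le_iff₀ hN').2 (Int.floor_le _)⟩
  rw [le_div_iff₀ hN', sub_mul, one_div, inv_mul_cancel₀ hN'.ne']
  exact (Int.sub_one_lt_floor _).le

theorem abs_sub_roundVal_le {N : ℕ} (hN : 0 < N) (y : ℝ) :
    |y - roundVal N y| ≤ 1 / N + {z : ℝ | (N : ℝ) < |z|}.indicator (fun z => |z|) y := by
  by_cases h : |y| ≤ N
  · obtain ⟨h1, h2⟩ := roundVal_bounds hN h
    rw [indicator_of_notMem (show y ∉ {z : ℝ | (N : ℝ) < |z|} from not_lt.2 h), add_zero,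
      abs_of_nonneg (by linarith)]
    linarith
  · rw [roundVal, roundIndex, if_neg h, Int.cast_zero, zero_div, sub_zero,
      indicator_of_mem (show y ∈ {z : ℝ | (N : ℝ) < |z|} from not_le.1 h)]
    exact le_add_of_nonneg_left (by positivity)

variable {ν : Measure ℝ} [IsProbabilityMeasure ν]

/-- The weights of the rounded law. -/
def roundWeight (ν : Measure ℝ) (N : ℕ) (i : ℤ) : ℝ := ν.real (roundIndex N ⁻¹' {i})

/-- A function of the rounded value integrates to a finite sum. -/
theorem integral_round {G : Type*} [NormedAddCommGroup G] [NormedSpace ℝ G] [CompleteSpace G]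
    (N : ℕ) (F : ℤ → G) :
    ∫ y, F (roundIndex N y) ∂ν =
      ∑ i ∈ Finset.Icc (-((N : ℤ) * N)) ((N : ℤ) * N), roundWeight ν N i • F i := by
  have hm : ∀ i : ℤ, MeasurableSet (roundIndex N ⁻¹' {i}) := fun i =>
    measurable_roundIndex N (measurableSet_singleton i)
  have e : ∀ y, F (roundIndex N y) = ∑ i ∈ Finset.Icc (-((N : ℤ) * N)) ((N : ℤ) * N),
      (roundIndex N ⁻¹' {i}).indicator (fun _ => F i) y := fun y => by
    rw [Finset.sum_eq_single (roundIndex N y)]
    · rw [indicator_of_mem (show y ∈ roundIndex N ⁻¹' {roundIndex N y} from rfl)]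
    · exact fun i _ hi =>
        indicator_of_notMem (show y ∉ roundIndex N ⁻¹' {i} from fun h => hi h.symm) _
    · exact fun h => absurd (roundIndex_mem N y) h
  simp only [e]
  rw [integral_finsetSum _ fun i _ => (integrable_const (F i)).indicator (hm i)]
  exact Finset.sum_congr rfl fun i _ => integral_indicator_const _ (hm i)

/-- **The smoothing inequality.** -/
theorem abs_measureReal_Iic_sub_le (hint : Integrable (fun y : ℝ => y) ν) {p : ℝ → ℝ} {m T : ℝ}
    (hp : DensityLE p m) (hm : 0 < m) (hT : 0 < T) {B : ℝ → ℝ}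
    (hB : IntervalIntegrable B volume (-T) T) (hB0 : ∀ r, 0 ≤ B r)
    (hfg : ∀ r, |r| ≤ T → ‖charFun ν r - charDens p r‖ ≤ |r| * B r) (x : ℝ) :
    |ν.real (Iic x) - densDist p x| ≤ 6 * (∫ r in (-T)..T, B r) + 320 * m / T := by
  set K := 6 * (∫ r in (-T)..T, B r) + 320 * m / T with hK
  set tail : ℕ → ℝ := fun N => ∫ y, {z : ℝ | (N : ℝ) < |z|}.indicator (fun z => |z|) y ∂ν
  set mass : ℕ → ℝ := fun N => ∫ y, {z : ℝ | (N : ℝ) < |z|}.indicator (fun _ => (1 : ℝ)) y ∂ν
  have hset : ∀ N : ℕ, MeasurableSet {z : ℝ | (N : ℝ) < |z|} := fun N =>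
    measurableSet_lt measurable_const continuous_abs.measurable
  have hzero : ∀ (h : ℝ → ℝ), Integrable h ν → (∀ y, 0 ≤ h y) → Tendsto
      (fun N : ℕ => ∫ y, {z : ℝ | (N : ℝ) < |z|}.indicator h y ∂ν) atTop (𝓝 0) := by
    intro h hh h0
    rw [← integral_zero ℝ ℝ (μ := ν)]
    refine tendsto_integral_of_dominated_convergence h (fun N =>
      (hh.indicator (hset N)).aestronglyMeasurable) hh (fun N => Eventually.of_forall fun y => ?_)
      (Eventually.of_forall fun y => ?_)
    · rw [Real.norm_eq_abs, abs_of_nonneg (indicator_nonneg (fun z _ => h0 z) y)]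
      exact indicator_le_self' (fun z _ => h0 z) y
    · refine tendsto_const_nhds.congr' ?_
      filter_upwards [tendsto_natCast_atTop_atTop.eventually_ge_atTop |y|] with N hN
      exact (indicator_of_notMem (show y ∉ {z : ℝ | (N : ℝ) < |z|} from not_lt.2 hN) _).symm
  have htail := hzero _ hint.abs fun y => abs_nonneg y
  have hmass := hzero _ (integrable_const (1 : ℝ)) fun _ => zero_le_one
  -- the bound at every level of rounding
  have hlevel : ∀ N : ℕ, 0 < N → |ν.real (Iic x) - densDist p x| ≤
      K + 12 * T * (1 / N + tail N) + m * (1 / N) + mass N := by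
    intro N hN
    set e := 1 / (N : ℝ) + tail N
    have hsum : ∑ i ∈ Finset.Icc (-((N : ℤ) * N)) ((N : ℤ) * N), roundWeight ν N i = 1 := by
      have := integral_round (ν := ν) N (fun _ => (1 : ℝ))
      simpa using this.symm
    have hchar : ∀ r : ℝ, |r| ≤ T → ‖charSum (Finset.Icc (-((N : ℤ) * N)) ((N : ℤ) * N))
        (roundWeight ν N) (fun i => (i : ℝ) / N) r - charDens p r‖ ≤ |r| * (B r + e) := by
      intro r hr
      have e1 : charSum (Finset.Icc (-((N : ℤ) * N)) ((N : ℤ) * N)) (roundWeight ν N)
          (fun i => (i : ℝ) / N) r =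
          ∫ y, Complex.exp ((r : ℂ) * Complex.I * (roundVal N y : ℂ)) ∂ν := by
        refine Eq.trans ?_ (integral_round (ν := ν) N fun i : ℤ =>
          Complex.exp ((r : ℂ) * Complex.I * (((i : ℝ) / N : ℝ) : ℂ))).symm
        simp only [charSum, Complex.real_smul]
      have hi1 : Integrable (fun y => Complex.exp ((r : ℂ) * Complex.I * (roundVal N y : ℂ))) ν :=
        .of_bound (((Complex.continuous_exp.measurable.comp (measurable_const.mul
          (Complex.continuous_ofReal.measurable.comp
            (((measurable_of_countable (fun i : ℤ => (i : ℝ))).comp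
              (measurable_roundIndex N)).div_const _))))).aestronglyMeasurable) 1
          (Eventually.of_forall fun y => (RenyiTuran.norm_exp_mul_I_mul _ _).le)
      have hi2 : Integrable (fun y : ℝ => Complex.exp ((r : ℂ) * Complex.I * (y : ℂ))) ν :=
        .of_bound (Continuous.aestronglyMeasurable (by fun_prop)) 1
          (Eventually.of_forall fun y => (RenyiTuran.norm_exp_mul_I_mul _ _).le)
      have e2 : ‖charSum (Finset.Icc (-((N : ℤ) * N)) ((N : ℤ) * N)) (roundWeight ν N)
          (fun i => (i : ℝ) / N) r - charFun ν r‖ ≤ |r| * e := by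
        rw [e1, charFun_apply_real, show (fun y : ℝ => Complex.exp ((r : ℂ) * y * Complex.I)) =
          fun y : ℝ => Complex.exp ((r : ℂ) * Complex.I * (y : ℂ)) from funext fun y => by ring_nf,
          ← integral_sub hi1 hi2]
        refine (norm_integral_le_of_norm_le (g := fun y => |r| * (1 / N +
          {z : ℝ | (N : ℝ) < |z|}.indicator (fun z => |z|) y))
          (((integrable_const _).add (hint.abs.indicator (hset N))).const_mul _)
          (Eventually.of_forall fun y => ?_)).trans_eq ?_
        · refine le_trans ?_ (mul_le_mul_of_nonneg_left (abs_sub_roundVal_le hN y) (abs_nonneg r))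
          rw [show Complex.exp ((r : ℂ) * Complex.I * (roundVal N y : ℂ)) -
              Complex.exp ((r : ℂ) * Complex.I * (y : ℂ)) =
              Complex.exp ((r : ℂ) * Complex.I * (y : ℂ)) *
                (Complex.exp (Complex.I * ((r * (roundVal N y - y) : ℝ) : ℂ)) - 1) by
            rw [mul_sub, mul_one, ← Complex.exp_add]
            push_cast
            ring_nf, norm_mul, RenyiTuran.norm_exp_mul_I_mul, one_mul]
          refine Real.norm_exp_I_mul_ofReal_sub_one_le.trans_eq ?_
          rw [Real.norm_eq_abs, abs_mul, abs_sub_comm]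
        · rw [integral_const_mul, integral_add (integrable_const _)
            (hint.abs.indicator (hset N)), integral_const, probReal_univ, one_smul]
      refine (norm_sub_le_norm_sub_add_norm_sub _ (charFun ν r) _).trans ?_
      rw [mul_add, add_comm (|r| * B r)]
      exact add_le_add e2 (hfg r hr)
    have he0 : 0 ≤ e := add_nonneg (by positivity)
      (integral_nonneg fun y => indicator_nonneg (fun z _ => abs_nonneg z) y)
    have hstep : ∀ z : ℝ, |stepDist (Finset.Icc (-((N : ℤ) * N)) ((N : ℤ) * N))
        (roundWeight ν N) (fun i => (i : ℝ) / N) z - densDist p z| ≤ K + 12 * T * e := by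
      intro z
      refine (esseen_smoothing_le (fun i _ => measureReal_nonneg) hsum hp hm hT
        (hB.add intervalIntegrable_const) (fun r => add_nonneg (hB0 r) he0) hchar z).trans
        (le_of_eq ?_)
      rw [intervalIntegral.integral_add hB intervalIntegrable_const,
        intervalIntegral.integral_const, smul_eq_mul, hK]
      ring
    have e3 : ∀ z : ℝ, stepDist (Finset.Icc (-((N : ℤ) * N)) ((N : ℤ) * N)) (roundWeight ν N)
        (fun i => (i : ℝ) / N) z = ν.real {y | roundVal N y ≤ z} := by
      intro z
      have hz : MeasurableSet {y | roundVal N y ≤ z} := measurableSet_le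
        (((measurable_of_countable (fun i : ℤ => (i : ℝ))).comp
          (measurable_roundIndex N)).div_const _) measurable_const
      have h := integral_round (ν := ν) N (fun i : ℤ => if (i : ℝ) / N ≤ z then (1 : ℝ) else 0)
      rw [show (fun y => if (roundIndex N y : ℝ) / N ≤ z then (1 : ℝ) else 0) =
        {y | roundVal N y ≤ z}.indicator 1 from funext fun y => by
          simp [indicator_apply, roundVal], integral_indicator_one hz] at h
      rw [h, stepDist]
      exact Finset.sum_congr rfl fun i _ => by simp only [smul_eq_mul, mul_ite, mul_one, mul_zero]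
    have hmass' : mass N = ν.real {z : ℝ | (N : ℝ) < |z|} := integral_indicator_one (hset N)
    have h1 : ν.real (Iic x) ≤ ν.real {y | roundVal N y ≤ x} + mass N := by
      rw [hmass']
      refine (measureReal_mono ?_).trans (measureReal_union_le _ _)
      intro y (hy : y ≤ x)
      rcases le_or_gt |y| (N : ℝ) with h | h
      · exact Or.inl ((roundVal_bounds hN h).2.trans hy)
      · exact Or.inr h
    have h2 : ν.real {y | roundVal N y ≤ x - 1 / N} ≤ ν.real (Iic x) + mass N := by
      rw [hmass']
      refine (measureReal_mono ?_).trans (measureReal_union_le _ _)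
      intro y (hy : roundVal N y ≤ x - 1 / N)
      rcases le_or_gt |y| (N : ℝ) with h | h
      · have := (roundVal_bounds hN h).1
        exact Or.inl (show y ≤ x by linarith)
      · exact Or.inr h
    rw [← e3] at h1 h2
    obtain ⟨-, h3⟩ := abs_le.1 (hstep x)
    obtain ⟨h4, -⟩ := abs_le.1 (hstep (x - 1 / N))
    have h5 := (densDist_lipschitz hp (show x - 1 / (N : ℝ) ≤ x by
      linarith [show 0 ≤ 1 / (N : ℝ) by positivity])).2
    have h6 : 0 ≤ m * (1 / N : ℝ) := mul_nonneg hm.le (by positivity)
    rw [sub_sub_cancel] at h5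
    rw [abs_le]
    constructor <;> linarith
  have hlim : Tendsto (fun N : ℕ => K + 12 * T * (1 / (N : ℝ) + tail N) + m * (1 / N) + mass N)
      atTop (𝓝 K) := by
    have h := ((tendsto_const_nhds (x := K)).add
      ((tendsto_one_div_atTop_nhds_zero_nat.add htail).const_mul (12 * T))).add
      (tendsto_one_div_atTop_nhds_zero_nat.const_mul m) |>.add hmass
    simpa using h
  exact ge_of_tendsto hlim (eventually_atTop.2 ⟨1, hlevel⟩)

end FA.BerryEsseen
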